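import Mathlib.Analysis.Complex.UpperHalfPlane.Measure
import Mathlib.MeasureTheory.Measure.Lebesgue.Complex
import Mathlib.MeasureTheory.Integral.Prod
import Mathlib.MeasureTheory.Measure.WithDensity
import Mathlib.MeasureTheory.Integral.Bochner.ContinuousLinearMap

/-!
# Integrals over the upper half plane in coordinates
-/

set_option autoImplicit false

noncomputable section

namespace FLTAgent.LT.Asai

open MeasureTheory UpperHalfPlane
open scoped ENNReal NNReal

theorem range_coe_eq : Set.range ((↑) : ℍ → ℂ) = {z : ℂ | 0 < z.im} := by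
  ext z
  exact ⟨by rintro ⟨τ, rfl⟩; exact τ.im_pos, fun h => ⟨⟨z, h⟩, rfl⟩⟩

theorem measurableSet_upper : MeasurableSet {z : ℂ | 0 < z.im} :=
  measurableSet_lt measurable_const Complex.measurable_im

/-- The measure in coordinates. -/
def coordMeasure : Measure (ℝ × ℝ) :=
  ((volume : Measure ℝ).prod ((volume : Measure ℝ).restrict (Set.Ioi 0))).withDensity
    fun p => ENNReal.ofReal ((p.2 ^ 2)⁻¹)

theorem lintegral_uhp {f : ℂ → ℝ≥0∞} (hf : Measurable f) :
    ∫⁻ τ : ℍ, f τ = ∫⁻ p : ℝ × ℝ, f ⟨p.1, p.2⟩ ∂coordMeasure := by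
  have hd : Measurable fun p : ℝ × ℝ => ENNReal.ofReal ((p.2 ^ 2)⁻¹) := by fun_prop
  have hf' : Measurable fun p : ℝ × ℝ => f ⟨p.1, p.2⟩ :=
    hf.comp Complex.measurableEquivRealProd.symm.measurable
  have hdH : Measurable fun z : ℍ =>
      ((1 / NNReal.mk z.im z.im_pos.le : ℝ≥0)) ^ 2 := by
    refine Continuous.measurable (Continuous.pow ?_ _)
    exact continuous_const.div₀ (continuous_im.subtype_mk _) fun x => NNReal.ne_iff.mp x.im_ne_zero
  rw [coordMeasure, lintegral_withDensity_eq_lintegral_mul _ hd hf', UpperHalfPlane.volume_def,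
    lintegral_withDensity_eq_lintegral_mul _ hdH.coe_nnreal_ennreal
      (g := fun τ : ℍ => f τ) (hf.comp measurable_coe)]
  set g : ℂ → ℝ≥0∞ := fun z => ENNReal.ofReal ((z.im ^ 2)⁻¹) * f z
  have hg : ∀ τ : ℍ, (((1 / NNReal.mk τ.im τ.im_pos.le : ℝ≥0) ^ 2 : ℝ≥0) : ℝ≥0∞) * f τ = g τ :=
    fun τ => by
      simp only [g, ← ENNReal.ofReal_coe_nnreal]
      congr 2
      push_cast
      simp
  simp only [Pi.mul_apply, hg]
  rw [← measurableEmbedding_coe.lintegral_map g, measurableEmbedding_coe.map_comap, range_coe_eq,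
    ← lintegral_indicator measurableSet_upper,
    ← Complex.volume_preserving_equiv_real_prod.symm.lintegral_comp_emb
      Complex.measurableEquivRealProd.symm.measurableEmbedding]
  rw [show (volume : Measure ℝ).prod ((volume : Measure ℝ).restrict (Set.Ioi 0)) =
      ((volume : Measure ℝ).prod volume).restrict (Set.univ ×ˢ Set.Ioi 0) by
        rw [← Measure.prod_restrict, Measure.restrict_univ],
    ← lintegral_indicator (MeasurableSet.univ.prod measurableSet_Ioi), ← Measure.volume_eq_prod]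
  refine lintegral_congr fun p => ?_
  show {z : ℂ | 0 < z.im}.indicator g ⟨p.1, p.2⟩ = _
  by_cases h : 0 < p.2
  · rw [Set.indicator_of_mem (show (⟨p.1, p.2⟩ : ℂ) ∈ {z : ℂ | 0 < z.im} from h),
      Set.indicator_of_mem (show p ∈ Set.univ ×ˢ Set.Ioi 0 from ⟨trivial, h⟩)]
  · rw [Set.indicator_of_notMem (fun hm : (⟨p.1, p.2⟩ : ℂ) ∈ {z : ℂ | 0 < z.im} => h hm),
      Set.indicator_of_notMem (fun hm : p ∈ Set.univ ×ˢ Set.Ioi 0 => h hm.2)]

/-- The point in coordinates. -/
def uhpPair (τ : ℍ) : ℝ × ℝ := (τ.re, τ.im)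

theorem measurableEmbedding_uhpPair : MeasurableEmbedding uhpPair :=
  Complex.measurableEquivRealProd.measurableEmbedding.comp measurableEmbedding_coe

theorem measurePreserving_uhpPair : MeasurePreserving uhpPair volume coordMeasure := by
  refine ⟨measurableEmbedding_uhpPair.measurable, Measure.ext fun s hs => ?_⟩
  rw [Measure.map_apply measurableEmbedding_uhpPair.measurable hs,
    ← lintegral_indicator_one (measurableEmbedding_uhpPair.measurable hs),
    ← lintegral_indicator_one hs]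
  have h := lintegral_uhp (f := fun z => s.indicator (1 : ℝ × ℝ → ℝ≥0∞) (z.re, z.im))
    ((measurable_one.indicator hs).comp (Complex.measurable_re.prodMk Complex.measurable_im))
  refine Eq.trans (lintegral_congr fun τ => ?_) h
  exact Set.indicator_comp_right (f := uhpPair) (g := (1 : ℝ × ℝ → ℝ≥0∞))

instance : SFinite coordMeasure :=
  measurePreserving_uhpPair.map_eq ▸ inferInstance

theorem coord_ae : ∀ᵐ p : ℝ × ℝ ∂coordMeasure, 0 < p.2 := by
  refine (withDensity_absolutelyContinuous _ _).ae_le ?_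
  exact Measure.quasiMeasurePreserving_snd.ae (ae_restrict_mem measurableSet_Ioi)

theorem integrable_uhp_iff {F : ℂ → ℂ} :
    Integrable (fun τ : ℍ => F τ) ↔ Integrable (fun p : ℝ × ℝ => F ⟨p.1, p.2⟩) coordMeasure := by
  rw [← measurePreserving_uhpPair.integrable_comp_emb measurableEmbedding_uhpPair]
  exact Iff.rfl

theorem integral_uhp (F : ℂ → ℂ) :
    ∫ τ : ℍ, F τ = ∫ p : ℝ × ℝ, F ⟨p.1, p.2⟩ ∂coordMeasure :=
  measurePreserving_uhpPair.integral_comp measurableEmbedding_uhpPair
    fun p : ℝ × ℝ => F ⟨p.1, p.2⟩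

/-- Iterated integrals. -/
theorem integral_uhp_iterated {F : ℂ → ℂ} (hF : Integrable fun τ : ℍ => F τ) :
    ∫ τ : ℍ, F τ = ∫ y in Set.Ioi (0 : ℝ), (((y ^ 2)⁻¹ : ℝ) : ℂ) * ∫ x : ℝ, F ⟨x, y⟩ := by
  have hd : Measurable fun p : ℝ × ℝ => Real.toNNReal ((p.2 ^ 2)⁻¹) := by fun_prop
  have hi := integrable_uhp_iff.mp hF
  have hce : coordMeasure = ((volume : Measure ℝ).prod ((volume : Measure ℝ).restrict (Set.Ioi 0))).withDensity
      fun p => ((Real.toNNReal ((p.2 ^ 2)⁻¹) : ℝ≥0) : ℝ≥0∞) := rfl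
  rw [hce] at hi
  rw [integral_uhp, hce, integral_withDensity_eq_integral_smul hd]
  rw [integrable_withDensity_iff_integrable_smul hd] at hi
  rw [integral_prod_symm _ hi]
  refine setIntegral_congr_fun measurableSet_Ioi fun y (hy : 0 < y) => ?_
  rw [← integral_const_mul]
  refine integral_congr_ae (Filter.Eventually.of_forall fun x => ?_)
  simp [NNReal.smul_def, max_eq_left (inv_nonneg.mpr (sq_nonneg y))]

end FLTAgent.LT.Asai
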