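import Fermat.Agent.LT.RS.Mellin
import Mathlib.Analysis.SpecialFunctions.Gamma.Basic
import Mathlib.Analysis.SpecialFunctions.Gamma.Deriv
import Mathlib.Analysis.Complex.UpperHalfPlane.Basic
import Mathlib.NumberTheory.Modular
import Mathlib.NumberTheory.ArithmeticFunction.Moebius
import Mathlib.Analysis.PSeries
import Mathlib.Data.ZMod.Basic

/-!
# Eisenstein lattice sums of level `m` near the edge of absolute convergence
-/

set_option autoImplicit false

noncomputable section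

namespace FLTAgent.LT.Asai

open MeasureTheory FLTAgent.LT.RS UpperHalfPlane
open scoped Real RealInnerProductSpace Modular

/-- `(y / |r₀ τ + r₁|²) ^ s`, which is zero at the origin. -/
def eterm (τ : ℍ) (s : ℝ) (r : Fin 2 → ℤ) : ℝ :=
  (τ.im / Complex.normSq ((r 0 : ℂ) * τ + r 1)) ^ s

theorem eterm_nonneg (τ : ℍ) (s : ℝ) (r : Fin 2 → ℤ) : 0 ≤ eterm τ s r :=
  Real.rpow_nonneg (div_nonneg τ.im_pos.le (Complex.normSq_nonneg _)) _

theorem eterm_zero (τ : ℍ) {s : ℝ} (hs : s ≠ 0) : eterm τ s 0 = 0 := by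
  simp [eterm, Real.zero_rpow hs]

theorem eterm_nat_mul (τ : ℍ) (s : ℝ) (k : ℕ) (r : Fin 2 → ℤ) :
    eterm τ s (fun i => (k : ℤ) * r i) = (k : ℝ) ^ (-(2 * s)) * eterm τ s r := by
  simp only [eterm]
  push_cast
  rw [show (k : ℂ) * (r 0 : ℂ) * τ + (k : ℂ) * (r 1 : ℂ) = (k : ℂ) * ((r 0 : ℂ) * τ + r 1) by ring,
    Complex.normSq_mul, Complex.normSq_natCast, ← sq, div_mul_eq_div_div_swap, div_eq_mul_inv _ ((k : ℝ) ^ 2),
    Real.mul_rpow (div_nonneg τ.im_pos.le (Complex.normSq_nonneg _)) (by positivity),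
    Real.inv_rpow (sq_nonneg _), ← Real.rpow_natCast (k : ℝ) 2, ← Real.rpow_mul (Nat.cast_nonneg k),
    ← Real.rpow_neg (Nat.cast_nonneg k), mul_comm]
  norm_num

/-- The sum over a class modulo `m`. -/
def estar (m : ℕ) (w : Fin 2 → ℤ) (τ : ℍ) (s : ℝ) : ℝ :=
  ∑' v : Fin 2 → ℤ, eterm τ s (fun i => w i + (m : ℤ) * v i)

/-- The lattice map of `τ`, normalised to covolume one. -/
def latL (τ : ℍ) : (Fin 2 → ℝ) →ₗ[ℝ] ℂ where
  toFun a := ((Real.sqrt τ.im)⁻¹ : ℝ) • ((a 0 : ℂ) * (τ : ℂ) + (a 1 : ℂ))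
  map_add' a b := by simp only [Pi.add_apply]; rw [← smul_add]; push_cast; ring_nf
  map_smul' c a := by
    simp only [Pi.smul_apply, smul_eq_mul, RingHom.id_apply, Complex.real_smul]
    push_cast
    ring

theorem norm_latL_sq (τ : ℍ) (a : Fin 2 → ℝ) :
    ‖latL τ a‖ ^ 2 = Complex.normSq ((a 0 : ℂ) * (τ : ℂ) + (a 1 : ℂ)) / τ.im := by
  show ‖((Real.sqrt τ.im)⁻¹ : ℝ) • ((a 0 : ℂ) * (τ : ℂ) + (a 1 : ℂ))‖ ^ 2 = _
  rw [norm_smul, mul_pow, Real.norm_eq_abs, sq_abs, inv_pow, Real.sq_sqrt τ.im_pos.le,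
    ← Complex.normSq_eq_norm_sq, inv_mul_eq_div]

theorem normSq_row (τ : ℍ) (a : Fin 2 → ℝ) :
    Complex.normSq ((a 0 : ℂ) * (τ : ℂ) + (a 1 : ℂ)) =
      (a 0 * τ.re + a 1) ^ 2 + (a 0 * τ.im) ^ 2 := by
  rw [Complex.normSq_apply]
  simp [Complex.mul_re, Complex.mul_im]
  ring

theorem latL_injective (τ : ℍ) : Function.Injective (latL τ) := by
  rw [injective_iff_map_eq_zero]
  intro a ha
  have h := norm_latL_sq τ a
  rw [ha, norm_zero, zero_pow two_ne_zero, eq_comm, div_eq_zero_iff, normSq_row] at h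
  have h' := h.resolve_right τ.im_ne_zero
  rw [add_eq_zero_iff_of_nonneg (sq_nonneg _) (sq_nonneg _), sq_eq_zero_iff, sq_eq_zero_iff] at h'
  have h0 : a 0 = 0 := (mul_eq_zero.mp h'.2).resolve_right τ.im_ne_zero
  have h1 : a 1 = 0 := by simpa [h0] using h'.1
  ext i
  fin_cases i <;> assumption

theorem det_gram_latL (τ : ℍ) : (gram (latL τ)).det = 1 := by
  have h : ∀ p q : Fin 2 → ℝ, ⟪latL τ p, latL τ q⟫ =
      ((p 0 * τ.re + p 1) * (q 0 * τ.re + q 1) + (p 0 * τ.im) * (q 0 * τ.im)) / τ.im := fun p q => by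
    have hs : (Real.sqrt τ.im)⁻¹ * (Real.sqrt τ.im)⁻¹ = τ.im⁻¹ := by
      rw [← mul_inv, Real.mul_self_sqrt τ.im_pos.le]
    show ⟪((Real.sqrt τ.im)⁻¹ : ℝ) • ((p 0 : ℂ) * (τ : ℂ) + (p 1 : ℂ)),
      ((Real.sqrt τ.im)⁻¹ : ℝ) • ((q 0 : ℂ) * (τ : ℂ) + (q 1 : ℂ))⟫ = _
    rw [real_inner_smul_left, real_inner_smul_right, ← mul_assoc, hs, Complex.inner]
    simp [Complex.mul_re, Complex.mul_im]
    ring
  rw [Matrix.det_fin_two]
  simp only [gram, Matrix.of_apply, h]
  have := τ.im_ne_zero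
  simp
  field_simp
  ring

theorem gaussDual_latL (τ : ℍ) : ∃ Qd, GaussDual (latL τ) Qd 1 := by
  obtain ⟨Qd, κ, h⟩ := exists_gaussDual (latL τ) (latL_injective τ)
  have hκ : κ = 1 := by
    have h1 : κ ^ 2 = 1 ^ 2 := by rw [h.sq_eq, det_gram_latL, one_pow]
    exact (sq_eq_sq₀ h.pos.le zero_le_one).mp h1
  exact ⟨Qd, hκ ▸ h⟩

theorem latL_bounds {τ : ℍ} (hτ : τ ∈ ModularGroup.fd) (a : Fin 2 → ℝ) :
    1 / (4 * τ.im) * ∑ i, a i ^ 2 ≤ ‖latL τ a‖ ^ 2 ∧
      ‖latL τ a‖ ^ 2 ≤ 4 * τ.im * ∑ i, a i ^ 2 := by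
  have hy : 0 < τ.im := τ.im_pos
  have hy2 : 3 ≤ 4 * τ.im ^ 2 := ModularGroup.three_le_four_mul_im_sq_of_mem_fd hτ
  have hx : τ.re ^ 2 ≤ 1 / 4 := by
    have h : |τ.re| ≤ 1 / 2 := hτ.2
    nlinarith [abs_le.mp h]
  have hn : 1 ≤ τ.re ^ 2 + τ.im ^ 2 := by
    have h : 1 ≤ Complex.normSq (τ : ℂ) := hτ.1
    rw [Complex.normSq_apply] at h
    simpa [sq] using h
  rw [norm_latL_sq, normSq_row, Fin.sum_univ_two]
  constructor
  · rw [le_div_iff₀ hy, div_mul_eq_mul_div, one_mul, div_mul_eq_mul_div, div_le_iff₀ (by positivity)]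
    have key : a 0 ^ 2 + a 1 ^ 2 ≤ 4 * ((a 0 * τ.re + a 1) ^ 2 + (a 0 * τ.im) ^ 2) := by
      nlinarith [mul_nonneg (sq_nonneg (a 0)) (sub_nonneg.mpr hn), sq_nonneg (a 0 * τ.re * 2 + a 1),
        mul_nonneg (sq_nonneg (a 0)) (sub_nonneg.mpr hx), sq_nonneg (a 1)]
    nlinarith [mul_le_mul_of_nonneg_left key hy.le]
  · rw [div_le_iff₀ hy]
    have key : (a 0 * τ.re + a 1) ^ 2 + (a 0 * τ.im) ^ 2 ≤ 4 * τ.im ^ 2 * (a 0 ^ 2 + a 1 ^ 2) := by
      nlinarith [sq_nonneg (a 0 * τ.re - a 1), mul_nonneg (sq_nonneg (a 0)) (sub_nonneg.mpr hx),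
        mul_nonneg (sq_nonneg (a 1)) (sub_nonneg.mpr hy2),
        mul_nonneg (sq_nonneg (a 0)) (sub_nonneg.mpr hy2)]
    nlinarith [key]

/-- The polar coefficient of a class sum. -/
def cstE (m : ℕ) (s : ℝ) : ℝ := π ^ s / (Real.Gamma s * (m : ℝ) ^ (2 * s))

theorem exists_cstE_bound {m : ℕ} (hm : 0 < m) :
    ∃ B, ∀ s ∈ Set.Icc (1 : ℝ) 2, |cstE m s| ≤ B := by
  have hc : ContinuousOn (cstE m) (Set.Icc 1 2) := by
    intro s hs
    have hs0 : 0 < s := by linarith [hs.1]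
    have hmr : (0 : ℝ) < m := Nat.cast_pos.mpr hm
    refine ContinuousAt.continuousWithinAt (ContinuousAt.div ?_ (ContinuousAt.mul ?_ ?_) ?_)
    · exact Real.continuousAt_const_rpow Real.pi_ne_zero
    · exact (Real.differentiableAt_Gamma fun k => by
        intro h; linarith [Nat.cast_nonneg (α := ℝ) k]).continuousAt
    · exact (Real.continuousAt_const_rpow hmr.ne').comp (by fun_prop : ContinuousAt (fun s : ℝ => 2 * s) s)
    · exact mul_ne_zero (Real.Gamma_pos_of_pos hs0).ne' (Real.rpow_pos_of_pos hmr _).ne'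
  obtain ⟨B, hB⟩ := isCompact_Icc.exists_bound_of_continuousOn hc
  exact ⟨B, fun s hs => by simpa using hB s hs⟩

/-- The class sums differ from the polar term by `O(y³)` on the fundamental domain. -/
theorem exists_estar_bound {m : ℕ} (hm : 0 < m) (w : Fin 2 → ℤ) :
    ∃ C, 0 ≤ C ∧ ∀ τ ∈ ModularGroup.fd, ∀ s ∈ Set.Ioc (1 : ℝ) 2,
      Summable (fun v : Fin 2 → ℤ => eterm τ s (fun i => w i + (m : ℤ) * v i)) ∧
      |estar m w τ s - cstE m s / (s - 1)| ≤ C * τ.im ^ 3 := by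
  classical
  set x : Fin 2 → ℝ := fun i => (w i : ℝ) / m with hx
  obtain ⟨C, hC0, hC⟩ := exists_mellin_bound (E := ℂ) x
  obtain ⟨B, hB⟩ := exists_cstE_bound hm
  have hB0 : 0 ≤ B := (abs_nonneg _).trans (hB 1 ⟨le_rfl, by norm_num⟩)
  have hmr : (0 : ℝ) < m := Nat.cast_pos.mpr hm
  refine ⟨B * (C * 200), by positivity, fun τ hτ s hs => ?_⟩
  have hy : 0 < τ.im := τ.im_pos
  have hs0 : 0 < s := by linarith [hs.1]
  obtain ⟨Qd, hQ⟩ := gaussDual_latL τ
  obtain ⟨hint, hbd⟩ := hC (latL τ) Qd 1 (1 / (4 * τ.im)) (4 * τ.im) hQ (by positivity)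
    (by positivity) (fun a => (latL_bounds hτ a).1) (fun a => (latL_bounds hτ a).2) s
    (by norm_num; exact hs.1) (by norm_num; exact hs.2)
  let T : (Fin 2 → ℤ) → ℝ → ℝ := fun v ρ => ρ ^ (s - 1) *
    (if latPt x v = 0 then 0 else Real.exp (-(π * ρ * ‖latL τ (latPt x v)‖ ^ 2)))
  have hnn : ∀ v, ∀ ρ ∈ Set.Ioi (0 : ℝ), 0 ≤ T v ρ := fun v ρ hρ =>
    mul_nonneg (Real.rpow_nonneg (le_of_lt hρ) _) (by split_ifs <;> positivity)
  have hTm : ∀ v, AEStronglyMeasurable (T v) (volume.restrict (Set.Ioi (0 : ℝ))) := fun v => by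
    refine ((measurable_id.pow_const (s - 1)).mul ?_).aestronglyMeasurable
    split_ifs <;> fun_prop
  have hsum : ∀ᵐ ρ ∂volume.restrict (Set.Ioi (0 : ℝ)),
      Summable fun v => T v ρ :=
    (ae_restrict_mem measurableSet_Ioi).mono fun ρ hρ =>
      ((tsum_gauss_le x (F := fun a => ‖latL τ a‖ ^ 2) (by positivity : 0 < 1 / (4 * τ.im))
        (fun a => (latL_bounds hτ a).1) hρ).1).mul_left _
  have hnorm : ∀ᵐ ρ ∂volume.restrict (Set.Ioi (0 : ℝ)), ∀ v, ‖T v ρ‖ = T v ρ :=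
    (ae_restrict_mem measurableSet_Ioi).mono fun ρ hρ v => by
      rw [Real.norm_eq_abs, abs_of_nonneg (hnn v ρ hρ)]
  have hkey : HasSum (fun v => ∫ ρ in Set.Ioi (0 : ℝ), T v ρ)
      (∫ ρ in Set.Ioi (0 : ℝ), ρ ^ (s - 1) * thetaStar (latL τ) x ρ) := by
    refine hasSum_integral_of_dominated_convergence T hTm
      (fun v => hnorm.mono fun ρ h => le_of_eq (h v)) hsum ?_ ?_
    · refine hint.congr ?_
      exact Filter.Eventually.of_forall fun ρ => by
        simp only [T, thetaStar]; rw [tsum_mul_left]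
    · filter_upwards [hsum] with ρ hρ
      have : ρ ^ (s - 1) * thetaStar (latL τ) x ρ = ∑' v, T v ρ := by
        simp only [T, thetaStar]; rw [tsum_mul_left]
      rw [this]
      exact hρ.hasSum
  set K : ℝ := π ^ s / (Real.Gamma s * (m : ℝ) ^ (2 * s)) with hK
  have hterm : ∀ v, eterm τ s (fun i => w i + (m : ℤ) * v i) =
      K * ∫ ρ in Set.Ioi (0 : ℝ), T v ρ := fun v => by
    have hrow : ∀ i, ((w i + (m : ℤ) * v i : ℤ) : ℝ) = (m : ℝ) * latPt x v i := fun i => by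
      simp only [latPt, hx]
      push_cast
      field_simp
      ring
    by_cases hv : latPt x v = 0
    · have h0 : (fun i => w i + (m : ℤ) * v i) = (0 : Fin 2 → ℤ) := funext fun i => by
        have := hrow i
        rw [hv, Pi.zero_apply, mul_zero] at this
        exact_mod_cast this
      rw [h0, eterm_zero τ hs0.ne']
      simp [T, hv]
    · have hq : 0 < ‖latL τ (latPt x v)‖ ^ 2 := by
        refine sq_pos_of_pos (norm_pos_iff.mpr fun h => hv ?_)
        exact latL_injective τ (h.trans (map_zero _).symm)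
      set q := ‖latL τ (latPt x v)‖ ^ 2 with hqdef
      have hns : Complex.normSq (((w 0 + (m : ℤ) * v 0 : ℤ) : ℂ) * τ +
          ((w 1 + (m : ℤ) * v 1 : ℤ) : ℂ)) = (m : ℝ) ^ 2 * (q * τ.im) := by
        rw [← Complex.ofReal_intCast, ← Complex.ofReal_intCast, hrow, hrow, hqdef, norm_latL_sq,
          div_mul_cancel₀ _ hy.ne']
        push_cast
        rw [mul_assoc, ← mul_add, Complex.normSq_mul, Complex.normSq_natCast, ← sq]
      have hI : ∫ ρ in Set.Ioi (0 : ℝ), T v ρ = (1 / (π * q)) ^ s * Real.Gamma s := by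
        rw [← Real.integral_rpow_mul_exp_neg_mul_Ioi hs0 (mul_pos Real.pi_pos hq)]
        refine setIntegral_congr_fun measurableSet_Ioi fun ρ _ => ?_
        simp only [T, if_neg hv, ← hqdef]
        ring_nf
      rw [hI, eterm]
      rw [hns, div_mul_eq_div_div_swap, div_mul_cancel_right₀ hy.ne', one_div,
        mul_inv, Real.mul_rpow (by positivity) (by positivity), Real.inv_rpow Real.pi_pos.le,
        Real.inv_rpow hq.le, Real.div_rpow (inv_nonneg.mpr hq.le) (sq_nonneg _),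
        Real.inv_rpow hq.le, ← Real.rpow_natCast (m : ℝ) 2, ← Real.rpow_mul hmr.le, hK]
      have hG : Real.Gamma s ≠ 0 := (Real.Gamma_pos_of_pos hs0).ne'
      have hp : π ^ s ≠ 0 := (Real.rpow_pos_of_pos Real.pi_pos _).ne'
      have hm2 : (m : ℝ) ^ (2 * s) ≠ 0 := (Real.rpow_pos_of_pos hmr _).ne'
      push_cast
      field_simp
  refine ⟨(hkey.summable.mul_left K).congr fun v => (hterm v).symm, ?_⟩
  rw [estar, tsum_congr hterm, tsum_mul_left, hkey.tsum_eq, cstE, ← hK,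
    div_eq_mul_inv K, ← mul_sub, abs_mul]
  have h200 : C * (1 + (1 / (4 * τ.im))⁻¹ ^ 3 + (1 : ℝ)⁻¹ * (4 * τ.im) ^ 3) ≤
      C * 200 * τ.im ^ 3 := by
    rw [one_div, inv_inv, inv_one, one_mul, mul_assoc C 200]
    refine mul_le_mul_of_nonneg_left ?_ hC0
    have hy34 : 3 / 4 ≤ τ.im := by
      nlinarith [ModularGroup.three_le_four_mul_im_sq_of_mem_fd hτ]
    nlinarith [pow_le_pow_left₀ (by norm_num) hy34 3]
  calc |K| * |(∫ ρ in Set.Ioi (0 : ℝ), ρ ^ (s - 1) * thetaStar (latL τ) x ρ) - (s - 1)⁻¹|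
      ≤ B * (C * 200 * τ.im ^ 3) := by
        refine mul_le_mul (hB s ⟨hs.1.le, hs.2⟩) (le_trans ?_ (hbd.trans h200)) (abs_nonneg _) hB0
        norm_num
    _ = _ := by ring

/-- The residue multiplier of primitive sums. -/
def moebTot (m : ℕ) (s : ℝ) : ℝ :=
  ∑' k : ℕ, if k.Coprime m then (ArithmeticFunction.moebius k : ℝ) * (k : ℝ) ^ (-(2 * s)) else 0

/-- Coprime pairs in a class. -/
def primClass (m : ℕ) (w : Fin 2 → ℤ) : Set (Fin 2 → ℤ) :=
  {r | IsCoprime (r 0) (r 1) ∧ ∀ i, (m : ℤ) ∣ r i - w i}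

/-- The primitive sum over a class. -/
def eprim (m : ℕ) (w : Fin 2 → ℤ) (τ : ℍ) (s : ℝ) : ℝ :=
  ∑' r : primClass m w, eterm τ s r

theorem abs_moebius_cast_le (k : ℕ) : |(ArithmeticFunction.moebius k : ℝ)| ≤ 1 := by
  exact_mod_cast ArithmeticFunction.abs_moebius_le_one

theorem summable_rpow_two {s : ℝ} (hs : 1 ≤ s) :
    Summable fun k : ℕ => (k : ℝ) ^ (-(2 * s)) :=
  Real.summable_nat_rpow.mpr (by linarith)

/-- The representative of `k⁻¹ w` modulo `m`. -/
def scaleClass (m k : ℕ) (w : Fin 2 → ℤ) : Fin 2 → ℤ :=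
  fun i => (((k : ZMod m)⁻¹).val : ℤ) * w i

theorem mul_scale_iff {m k : ℕ} [NeZero m] (hk : k.Coprime m) (w : Fin 2 → ℤ) (v : Fin 2 → ℤ) :
    (∀ i, (m : ℤ) ∣ (k : ℤ) * v i - w i) ↔ ∀ i, (m : ℤ) ∣ v i - scaleClass m k w i := by
  have hu : (k : ZMod m) * (k : ZMod m)⁻¹ = 1 := ZMod.coe_mul_inv_eq_one k hk
  simp only [← ZMod.intCast_zmod_eq_zero_iff_dvd, scaleClass]
  push_cast
  simp only [ZMod.natCast_zmod_val, sub_eq_zero]
  refine forall_congr' fun i => ⟨fun h => ?_, fun h => ?_⟩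
  · rw [← h, ← mul_assoc, mul_comm (k : ZMod m)⁻¹, hu, one_mul]
  · rw [h, ← mul_assoc, hu, one_mul]

/-- The primitive sums differ from the polar term by `O(y³)` on the fundamental domain. -/
theorem exists_eprim_bound {m : ℕ} (hm : 0 < m) (w : Fin 2 → ℤ) (hw : IsCoprime (w 0) (w 1)) :
    ∃ C, 0 ≤ C ∧ ∀ τ ∈ ModularGroup.fd, ∀ s ∈ Set.Ioc (1 : ℝ) 2,
      Summable (fun r : primClass m w => eterm τ s r) ∧
      |eprim m w τ s - moebTot m s * cstE m s / (s - 1)| ≤ C * τ.im ^ 3 := by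
  classical
  have : NeZero m := ⟨hm.ne'⟩
  choose C hC0 hC using fun j : ZMod m =>
    exists_estar_bound hm (fun i => ((j.val : ℕ) : ℤ) * w i)
  set C' := ∑ j : ZMod m, C j
  have hC' : ∀ j, C j ≤ C' := fun j =>
    Finset.single_le_sum (fun i _ => hC0 i) (Finset.mem_univ j)
  set Z := ∑' k : ℕ, (k : ℝ) ^ (-(2 * 1 : ℝ))
  refine ⟨Z * C', mul_nonneg (tsum_nonneg fun k => by positivity)
    (Finset.sum_nonneg fun j _ => hC0 j), fun τ hτ s hs => ?_⟩
  have hs0 : 0 < s := by linarith [hs.1]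
  let R : ℕ → Set (Fin 2 → ℤ) := fun k =>
    {r | (∀ i, (k : ℤ) ∣ r i) ∧ ∀ i, (m : ℤ) ∣ r i - w i}
  let G : ℕ × (Fin 2 → ℤ) → ℝ := fun p =>
    if p.1 ≠ 0 ∧ p.2 ∈ R p.1 then eterm τ s p.2 else 0
  -- the row of a fixed `k`
  have hrow : ∀ k : ℕ, Summable (fun r => G (k, r)) ∧
      ∑' r, G (k, r) = if k ≠ 0 ∧ k.Coprime m then
        (k : ℝ) ^ (-(2 * s)) * estar m (scaleClass m k w) τ s else 0 := by
    intro k
    by_cases hk : k ≠ 0 ∧ k.Coprime m
    · rw [if_pos hk]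
      let e : (Fin 2 → ℤ) → (Fin 2 → ℤ) := fun v i =>
        (k : ℤ) * (scaleClass m k w i + (m : ℤ) * v i)
      have he : Function.Injective e := fun v v' h => funext fun i => by
        have h1 := mul_left_cancel₀ (Int.natCast_ne_zero.mpr hk.1) (congrFun h i)
        exact mul_left_cancel₀ (Int.natCast_ne_zero.mpr hm.ne') (add_left_cancel h1)
      have hmem : ∀ v, e v ∈ R k := fun v => ⟨fun i => Dvd.intro _ rfl,
        (mul_scale_iff hk.2 w _).mpr fun i => ⟨v i, by ring⟩⟩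
      have hsupp : ∀ r ∉ Set.range e, G (k, r) = 0 := by
        intro r hr
        refine if_neg fun h => hr ?_
        obtain ⟨hdiv, hcl⟩ := h.2
        choose v hv using hdiv
        have h2 : ∀ i, (m : ℤ) ∣ v i - scaleClass m k w i :=
          (mul_scale_iff hk.2 w v).mp fun i => by rw [← hv]; exact hcl i
        choose u hu using h2
        refine ⟨u, funext fun i => ?_⟩
        simp only [e]
        show _ = r i
        rw [show r i = (k : ℤ) * v i from hv i, ← hu i]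
        ring
      have hGe : ∀ v, G (k, e v) = (k : ℝ) ^ (-(2 * s)) *
          eterm τ s (fun i => scaleClass m k w i + (m : ℤ) * v i) := fun v => by
        simp only [G, if_pos (And.intro hk.1 (hmem v))]
        exact eterm_nat_mul τ s k _
      have hsum : Summable fun v => G (k, e v) :=
        (((hC (k : ZMod m)⁻¹ τ hτ s hs).1).mul_left _).congr fun v => (hGe v).symm
      refine ⟨(he.summable_iff hsupp).mp hsum, ?_⟩
      rw [← he.tsum_eq (f := fun r => G (k, r)) (fun r hr => by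
        by_contra h
        exact hr (hsupp r h))]
      simp only [hGe, tsum_mul_left]
      rfl
    · rw [if_neg hk]
      have hz : ∀ r, G (k, r) = 0 := fun r => if_neg fun h => hk ⟨h.1, by
        obtain ⟨hdiv, hcl⟩ := h.2
        obtain ⟨a, b, hab⟩ := hw
        rw [← Nat.isCoprime_iff_coprime]
        obtain ⟨v0, hv0⟩ := hdiv 0
        obtain ⟨v1, hv1⟩ := hdiv 1
        obtain ⟨u0, hu0⟩ := hcl 0
        obtain ⟨u1, hu1⟩ := hcl 1
        refine ⟨a * v0 + b * v1, -(a * u0 + b * u1), ?_⟩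
        linear_combination -a * hv0 - b * hv1 + a * hu0 + b * hu1 + hab⟩
      exact ⟨by simp [hz, summable_zero], by simp [hz]⟩
  have hest : ∀ k : ℕ, |estar m (scaleClass m k w) τ s - cstE m s / (s - 1)| ≤ C' * τ.im ^ 3 :=
    fun k => ((hC (k : ZMod m)⁻¹ τ hτ s hs).2).trans
      (mul_le_mul_of_nonneg_right (hC' _) (pow_nonneg τ.im_pos.le 3))
  have hle : ∀ k : ℕ, ∑' r, G (k, r) ≤
      (|cstE m s / (s - 1)| + C' * τ.im ^ 3) * (k : ℝ) ^ (-(2 * s)) := fun k => by
    rw [(hrow k).2, mul_comm _ ((k : ℝ) ^ (-(2 * s)))]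
    split_ifs
    · refine mul_le_mul_of_nonneg_left ?_ (by positivity)
      have h1 := hest k
      linarith [(abs_le.mp h1).2, le_abs_self (cstE m s / (s - 1))]
    · exact mul_nonneg (by positivity) (add_nonneg (abs_nonneg _) (mul_nonneg
        (Finset.sum_nonneg fun j _ => hC0 j) (pow_nonneg τ.im_pos.le 3)))
  have hGnn : ∀ p, 0 ≤ G p := fun p => by
    simp only [G]
    split_ifs
    exacts [eterm_nonneg _ _ _, le_rfl]
  have hGsum : Summable G := (summable_prod_of_nonneg hGnn).mpr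
    ⟨fun k => (hrow k).1, Summable.of_nonneg_of_le (fun k => tsum_nonneg fun r => hGnn _) hle
      ((summable_rpow_two hs.1.le).mul_left _)⟩
  let F : ℕ × (Fin 2 → ℤ) → ℝ := fun p => (ArithmeticFunction.moebius p.1 : ℝ) * G p
  have hFsum : Summable F := Summable.of_norm_bounded hGsum fun p => by
    rw [norm_mul, Real.norm_eq_abs, Real.norm_eq_abs, abs_of_nonneg (hGnn p)]
    exact mul_le_of_le_one_left (hGnn p) (abs_moebius_cast_le _)
  -- the column of a fixed `r`
  have hcol : ∀ r, ∑' k, F (k, r) = (primClass m w).indicator (eterm τ s) r := by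
    intro r
    by_cases hr : r = 0
    · subst hr
      have h1 : ∀ k, F (k, 0) = 0 := fun k => by simp [F, G, eterm_zero τ hs0.ne']
      have h2 : (primClass m w).indicator (eterm τ s) 0 = 0 := by
        simp [Set.indicator_apply, eterm_zero τ hs0.ne']
      simp [h1, h2]
    · by_cases hcl : ∀ i, (m : ℤ) ∣ r i - w i
      · set g := Int.gcd (r 0) (r 1)
        have hg : g ≠ 0 := fun h => hr (by
          obtain ⟨h0, h1⟩ := Int.gcd_eq_zero_iff.mp h
          ext i; fin_cases i <;> assumption)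
        have hdiv : ∀ k : ℕ, (∀ i, (k : ℤ) ∣ r i) ↔ k ∣ g := fun k => by
          constructor
          · exact fun h => Int.dvd_gcd (h 0) (h 1)
          · intro h i
            have h' : (k : ℤ) ∣ (g : ℤ) := Int.natCast_dvd_natCast.mpr h
            fin_cases i
            · exact h'.trans (Int.gcd_dvd_left _ _)
            · exact h'.trans (Int.gcd_dvd_right _ _)
        rw [tsum_eq_sum (s := g.divisors) fun k hk => ?_]
        · have e : ∀ k ∈ g.divisors, F (k, r) =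
              (ArithmeticFunction.moebius k : ℝ) * eterm τ s r := fun k hk => by
            have hkd := (Nat.mem_divisors.mp hk).1
            simp only [F, G]
            rw [if_pos ⟨ne_zero_of_dvd_ne_zero hg hkd, (hdiv k).mpr hkd, hcl⟩]
          have hmu : ∑ k ∈ g.divisors, ArithmeticFunction.moebius k = if g = 1 then 1 else 0 := by
            rw [← ArithmeticFunction.coe_mul_zeta_apply, ArithmeticFunction.moebius_mul_coe_zeta,
              ArithmeticFunction.one_apply]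
          rw [Finset.sum_congr rfl e, ← Finset.sum_mul, ← Int.cast_sum, hmu]
          by_cases h1 : g = 1
          · rw [if_pos h1, Int.cast_one, one_mul, Set.indicator_of_mem]
            exact ⟨Int.isCoprime_iff_gcd_eq_one.mpr h1, hcl⟩
          · rw [if_neg h1, Int.cast_zero, zero_mul, Set.indicator_of_notMem]
            exact fun h => h1 (Int.isCoprime_iff_gcd_eq_one.mp h.1)
        · simp only [F, G]
          rw [if_neg fun h => hk (Nat.mem_divisors.mpr ⟨(hdiv k).mp h.2.1, hg⟩), mul_zero]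
      · have h1 : ∀ k, F (k, r) = 0 := fun k => by
          simp only [F, G]
          rw [if_neg fun h => hcl h.2.2, mul_zero]
        rw [Set.indicator_of_notMem fun h => hcl h.2]
        simp [h1]
  have hFswap := hFsum.prod_symm
  have hsummable : Summable fun r : primClass m w => eterm τ s r := by
    have h := hFswap.prod
    rw [show (fun r => eterm τ s (r : primClass m w)) =
      (eterm τ s) ∘ ((↑) : primClass m w → (Fin 2 → ℤ)) from rfl,
      summable_subtype_iff_indicator]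
    exact h.congr fun r => hcol r
  refine ⟨hsummable, ?_⟩
  have htot : eprim m w τ s = ∑' k : ℕ, if k.Coprime m then
      (ArithmeticFunction.moebius k : ℝ) * (k : ℝ) ^ (-(2 * s)) *
        estar m (scaleClass m k w) τ s else 0 := by
    rw [eprim, tsum_subtype (primClass m w) (eterm τ s), ← tsum_congr hcol,
      Summable.tsum_comm (f := fun k r => F (k, r)) hFsum]
    refine tsum_congr fun k => ?_
    simp only [F, tsum_mul_left, (hrow k).2]
    rcases eq_or_ne k 0 with rfl | hk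
    · simp
    · by_cases hc : k.Coprime m <;> simp [hk, hc, mul_assoc]
  have hsm : Summable fun k : ℕ => if k.Coprime m then
      (ArithmeticFunction.moebius k : ℝ) * (k : ℝ) ^ (-(2 * s)) else 0 :=
    Summable.of_norm_bounded (summable_rpow_two hs.1.le) fun k => by
      split_ifs
      · rw [norm_mul, Real.norm_eq_abs, Real.norm_eq_abs, abs_of_nonneg (by positivity : (0:ℝ) ≤ (k:ℝ) ^ (-(2 * s)))]
        exact mul_le_of_le_one_left (by positivity) (abs_moebius_cast_le k)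
      · rw [norm_zero]; positivity
  set D : ℕ → ℝ := fun k => if k.Coprime m then (ArithmeticFunction.moebius k : ℝ) *
      (k : ℝ) ^ (-(2 * s)) * (estar m (scaleClass m k w) τ s - cstE m s / (s - 1)) else 0
  have hDle : ∀ k, ‖D k‖ ≤ (k : ℝ) ^ (-(2 * s)) * (C' * τ.im ^ 3) := fun k => by
    simp only [D]
    split_ifs
    · rw [norm_mul, norm_mul, Real.norm_eq_abs, Real.norm_eq_abs, Real.norm_eq_abs,
        abs_of_nonneg (by positivity : (0:ℝ) ≤ (k:ℝ) ^ (-(2 * s)))]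
      exact mul_le_mul (mul_le_of_le_one_left (by positivity) (abs_moebius_cast_le k)) (hest k)
        (abs_nonneg _) (by positivity)
    · rw [norm_zero]
      exact mul_nonneg (by positivity) (mul_nonneg (Finset.sum_nonneg fun j _ => hC0 j)
        (pow_nonneg τ.im_pos.le 3))
  have hD : Summable D := Summable.of_norm_bounded ((summable_rpow_two hs.1.le).mul_right _) hDle
  have hsplit : eprim m w τ s = (∑' k, D k) + moebTot m s * (cstE m s / (s - 1)) := by
    rw [htot, moebTot, ← tsum_mul_right, ← hD.tsum_add (hsm.mul_right _)]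
    refine tsum_congr fun k => ?_
    simp only [D]
    split_ifs <;> ring
  rw [hsplit, mul_div_assoc, add_sub_cancel_right, ← Real.norm_eq_abs]
  refine (tsum_of_norm_bounded ((summable_rpow_two hs.1.le).mul_right _).hasSum hDle).trans ?_
  rw [tsum_mul_right, mul_assoc]
  refine mul_le_mul_of_nonneg_right ((summable_rpow_two hs.1.le).tsum_le_tsum (fun k => ?_)
    (summable_rpow_two le_rfl)) (mul_nonneg (Finset.sum_nonneg fun j _ => hC0 j)
      (pow_nonneg τ.im_pos.le 3))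
  rcases Nat.eq_zero_or_pos k with rfl | hk
  · simp [Real.zero_rpow (show -(2 * s) ≠ 0 by linarith)]
  · exact Real.rpow_le_rpow_of_exponent_le (by exact_mod_cast hk) (by linarith [hs.1])

theorem exists_moebTot_bound (m : ℕ) :
    ∃ B, ∀ s ∈ Set.Icc (1 : ℝ) 2, |moebTot m s| ≤ B := by
  refine ⟨∑' k : ℕ, (k : ℝ) ^ (-(2 * 1 : ℝ)), fun s hs => ?_⟩
  rw [moebTot, ← Real.norm_eq_abs]
  refine tsum_of_norm_bounded (summable_rpow_two le_rfl).hasSum fun k => ?_
  rcases Nat.eq_zero_or_pos k with rfl | hk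
  · simp
  · split_ifs
    · rw [norm_mul, Real.norm_eq_abs, Real.norm_eq_abs, abs_of_nonneg (by positivity : (0:ℝ) ≤ (k:ℝ) ^ (-(2 * s)))]
      refine (mul_le_of_le_one_left (by positivity) (abs_moebius_cast_le k)).trans ?_
      exact Real.rpow_le_rpow_of_exponent_le (by exact_mod_cast hk) (by linarith [hs.1])
    · rw [norm_zero]; positivity

end FLTAgent.LT.Asai
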