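import Mathlib.Analysis.Complex.UpperHalfPlane.Measure
import Mathlib.NumberTheory.Modular
import Mathlib.MeasureTheory.Integral.Bochner.Set
import Mathlib.MeasureTheory.Measure.Lebesgue.Complex
import Mathlib.MeasureTheory.Measure.Lebesgue.EqHaar

/-!
# Integrals over the modular fundamental domain of orbit sums
-/

set_option autoImplicit false

noncomputable section

namespace FLTAgent.LT.Asai

open MeasureTheory UpperHalfPlane
open scoped MatrixGroups Modular ENNReal

theorem countable_SL2Z : Countable SL(2, ℤ) := by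
  have : Countable (Matrix (Fin 2) (Fin 2) ℤ) := inferInstanceAs (Countable (Fin 2 → Fin 2 → ℤ))
  exact Subtype.countable

attribute [local instance] countable_SL2Z

theorem measurePreserving_smulSL (g : SL(2, ℤ)) :
    MeasurePreserving (fun τ : ℍ => g • τ) volume volume := by
  have h : (fun τ : ℍ => g • τ) = fun τ : ℍ => (g : GL (Fin 2) ℝ) • τ :=
    funext fun τ => ModularGroup.sl_moeb g τ
  rw [h]
  exact measurePreserving_smul _ volume

theorem measurableEmbedding_smulSL (g : SL(2, ℤ)) :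
    MeasurableEmbedding fun τ : ℍ => g • τ :=
  (MeasurableEquiv.mk ⟨fun τ => g • τ, fun τ => g⁻¹ • τ, inv_smul_smul g, smul_inv_smul g⟩
    (measurePreserving_smulSL g).measurable (measurePreserving_smulSL g⁻¹).measurable).measurableEmbedding

theorem measurableSet_fd : MeasurableSet (ModularGroup.fd : Set ℍ) :=
  ModularGroup.isClosed_fd.measurableSet

theorem volume_eq_zero_of_coe_null {s : Set ℍ}
    (h : volume ((↑) '' s : Set ℂ) = 0) : volume s = 0 := by
  rw [UpperHalfPlane.volume_eq_lintegral]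
  exact setLIntegral_measure_zero _ _ h

theorem volume_fd_diff_fdo : volume (ModularGroup.fd \ ModularGroup.fdo : Set ℍ) = 0 := by
  refine volume_eq_zero_of_coe_null (measure_mono_null
    (t := {z : ℂ | z.re = 1 / 2} ∪ {z : ℂ | z.re = -(1 / 2)} ∪ Metric.sphere (0 : ℂ) 1) ?_ ?_)
  · rintro _ ⟨τ, ⟨⟨h1, h2⟩, h⟩, rfl⟩
    change 1 ≤ Complex.normSq (τ : ℂ) at h1
    change |τ.re| ≤ 1 / 2 at h2
    rcases h2.lt_or_eq with hlt | heq
    · refine Or.inr ?_
      have h3 : Complex.normSq (τ : ℂ) = 1 := le_antisymm (not_lt.mp fun h' => h ⟨h', hlt⟩) h1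
      rw [mem_sphere_zero_iff_norm, Complex.norm_def, h3, Real.sqrt_one]
    · rcases (abs_eq (by norm_num)).mp heq with h3 | h3
      · exact Or.inl (Or.inl (by simpa using h3))
      · exact Or.inl (Or.inr (by simpa using h3))
  · have hline : ∀ c : ℝ, volume {z : ℂ | z.re = c} = 0 := fun c => by
      have h1 : {z : ℂ | z.re = c} = Complex.measurableEquivRealProd ⁻¹' ({c} ×ˢ Set.univ) := by
        ext z; simp [Complex.measurableEquivRealProd]
      rw [h1, Complex.volume_preserving_equiv_real_prod.measure_preimage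
        ((measurableSet_singleton c).prod MeasurableSet.univ).nullMeasurableSet,
        Measure.volume_eq_prod, Measure.prod_prod]
      simp
    exact measure_union_null (measure_union_null (hline _) (hline _))
      (Measure.addHaar_sphere volume 0 1)

open Classical in
set_option maxHeartbeats 800000 in
/-- Almost every point is carried to the fundamental domain by exactly two elements. -/
theorem tsum_indicator_fd_ae : ∀ᵐ τ : ℍ,
    ∑' g : SL(2, ℤ), ModularGroup.fd.indicator (fun _ => (1 : ℝ≥0∞)) (g • τ) = 2 := by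
  have hnull : ∀ᵐ τ : ℍ, ∀ g : SL(2, ℤ),
      g • τ ∉ (ModularGroup.fd \ ModularGroup.fdo : Set ℍ) := by
    rw [ae_all_iff]
    intro g
    have h : ∀ᵐ x : ℍ, x ∉ (ModularGroup.fd \ ModularGroup.fdo : Set ℍ) :=
      measure_eq_zero_iff_ae_notMem.mp volume_fd_diff_fdo
    exact (measurePreserving_smulSL g).quasiMeasurePreserving.ae h
  filter_upwards [hnull] with τ hτ
  obtain ⟨g₀, hg₀⟩ := ModularGroup.exists_smul_mem_fd τ
  have hin : g₀ • τ ∈ ModularGroup.fdo := by
    by_contra h
    exact hτ g₀ ⟨hg₀, h⟩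
  have hiff : ∀ g : SL(2, ℤ), g • τ ∈ ModularGroup.fd ↔ g = g₀ ∨ g = -g₀ := fun g => by
    constructor
    · intro hg
      rcases ModularGroup.eq_one_or_neg_one_of_mem_fdo_mem_fd (g := g * g₀⁻¹) hin
        (by rw [mul_smul, inv_smul_smul]; exact hg) with h | h
      · exact Or.inl (mul_inv_eq_one.mp h)
      · refine Or.inr ?_
        rw [mul_inv_eq_iff_eq_mul] at h
        rw [h, neg_one_mul]
    · rintro (rfl | rfl)
      · exact hg₀
      · rw [ModularGroup.SL_neg_smul]; exact hg₀
  have hne : g₀ ≠ -g₀ := fun h => by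
    have h1 : (1 : SL(2, ℤ)) = -1 := by
      have := congrArg (g₀⁻¹ * ·) h
      simpa using this
    have := congrArg (fun g : SL(2, ℤ) => (g : Matrix (Fin 2) (Fin 2) ℤ) 0 0) h1
    simp at this
  rw [tsum_eq_sum (s := {g₀, -g₀}) fun g hg => ?_, Finset.sum_pair hne,
    Set.indicator_of_mem ((hiff g₀).mpr (Or.inl rfl)),
    Set.indicator_of_mem ((hiff (-g₀)).mpr (Or.inr rfl)), one_add_one_eq_two]
  rw [Finset.mem_insert, Finset.mem_singleton] at hg
  exact Set.indicator_of_notMem (fun h => hg ((hiff g).mp h)) _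

/-- The same, with inverses. -/
theorem tsum_indicator_fd_inv_ae : ∀ᵐ τ : ℍ,
    ∑' g : SL(2, ℤ), ModularGroup.fd.indicator (fun _ => (1 : ℝ≥0∞)) (g⁻¹ • τ) = 2 :=
  tsum_indicator_fd_ae.mono fun τ hτ => ((Equiv.inv SL(2, ℤ)).tsum_eq
    fun g => ModularGroup.fd.indicator (fun _ => (1 : ℝ≥0∞)) (g • τ)).trans hτ

theorem lintegral_fd_tsum_smul {f : ℍ → ℝ≥0∞} (hf : Measurable f) :
    ∑' g : SL(2, ℤ), ∫⁻ τ in ModularGroup.fd, f (g • τ) = 2 * ∫⁻ τ, f τ := by
  have h1 : ∀ g : SL(2, ℤ), ∫⁻ τ in ModularGroup.fd, f (g • τ) =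
      ∫⁻ τ, f τ * ModularGroup.fd.indicator (fun _ => 1) (g⁻¹ • τ) := fun g => by
    rw [← lintegral_indicator measurableSet_fd,
      ← (measurePreserving_smulSL g).lintegral_comp
        (f := fun τ => f τ * ModularGroup.fd.indicator (fun _ => 1) (g⁻¹ • τ))
        (hf.mul ((measurable_const.indicator measurableSet_fd).comp
          (measurePreserving_smulSL g⁻¹).measurable))]
    refine lintegral_congr fun τ => ?_
    rw [inv_smul_smul]
    by_cases h : τ ∈ ModularGroup.fd <;> simp [h]
  simp only [h1]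
  rw [← lintegral_tsum
    (f := fun (g : SL(2, ℤ)) τ => f τ * ModularGroup.fd.indicator (fun _ => 1) (g⁻¹ • τ))
    fun g => (hf.mul ((measurable_const.indicator measurableSet_fd).comp
    (measurePreserving_smulSL g⁻¹).measurable)).aemeasurable, ← lintegral_const_mul 2 hf]
  refine lintegral_congr_ae (tsum_indicator_fd_inv_ae.mono fun τ hτ => ?_)
  simp only [ENNReal.tsum_mul_left]
  rw [hτ, mul_comm]

set_option maxHeartbeats 800000 in
/-- The orbit sum of an integrable function has integral twice its integral. -/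
theorem setIntegral_fd_tsum_smul {P : ℍ → ℂ} (hP : Integrable P) :
    (∀ᵐ τ ∂volume.restrict ModularGroup.fd, Summable fun g : SL(2, ℤ) => ‖P (g • τ)‖) ∧
      IntegrableOn (fun τ => ∑' g : SL(2, ℤ), P (g • τ)) ModularGroup.fd ∧
      ∫ τ in ModularGroup.fd, ∑' g : SL(2, ℤ), P (g • τ) = 2 * ∫ τ, P τ := by
  have hmk := hP.aestronglyMeasurable.ae_eq_mk
  set Q := hP.aestronglyMeasurable.mk P
  have hQm : StronglyMeasurable Q := hP.aestronglyMeasurable.stronglyMeasurable_mk
  have hQ : Integrable Q := hP.congr hmk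
  have hae : ∀ᵐ τ ∂volume.restrict ModularGroup.fd, ∀ g : SL(2, ℤ), P (g • τ) = Q (g • τ) :=
    ae_restrict_of_ae (ae_all_iff.mpr fun g =>
      (measurePreserving_smulSL g).quasiMeasurePreserving.ae hmk)
  have hm : ∀ g : SL(2, ℤ), Measurable fun τ => Q (g • τ) := fun g =>
    hQm.measurable.comp (measurePreserving_smulSL g).measurable
  have hfin : ∑' g : SL(2, ℤ), ∫⁻ τ in ModularGroup.fd, ‖Q (g • τ)‖ₑ ≠ ⊤ := by
    rw [lintegral_fd_tsum_smul hQm.measurable.enorm]
    exact ENNReal.mul_ne_top ENNReal.ofNat_ne_top hQ.hasFiniteIntegral.ne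
  have hlt : ∫⁻ τ in ModularGroup.fd, ∑' g : SL(2, ℤ), ‖Q (g • τ)‖ₑ ≠ ⊤ := by
    rwa [lintegral_tsum fun g => (hm g).enorm.aemeasurable]
  have hsumQ : ∀ᵐ τ ∂volume.restrict ModularGroup.fd,
      Summable fun g : SL(2, ℤ) => ‖Q (g • τ)‖ := by
    filter_upwards [ae_lt_top (Measurable.ennreal_tsum fun g => (hm g).enorm) hlt] with τ hτ
    have h : Summable fun g : SL(2, ℤ) => ‖Q (g • τ)‖₊ := by
      rw [← ENNReal.tsum_coe_ne_top_iff_summable]
      simpa [enorm_eq_nnnorm] using hτ.ne
    simpa using NNReal.summable_coe.mpr h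
  have hcongr : (fun τ => ∑' g : SL(2, ℤ), P (g • τ)) =ᵐ[volume.restrict ModularGroup.fd]
      fun τ => ∑' g : SL(2, ℤ), Q (g • τ) := hae.mono fun τ h => tsum_congr h
  refine ⟨(hae.and hsumQ).mono fun τ h => h.2.congr fun g => by rw [h.1 g], ?_, ?_⟩
  · refine Integrable.congr ?_ hcongr.symm
    refine ⟨?_, lt_of_le_of_lt (lintegral_mono_ae (hsumQ.mono fun τ hτ => ?_)) hlt.lt_top⟩
    · exact aestronglyMeasurable_of_tendsto_ae (u := (Filter.atTop : Filter (Finset SL(2, ℤ))))
        (f := fun S : Finset SL(2, ℤ) => fun τ => ∑ g ∈ S, Q (g • τ))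
        (fun S => (Finset.measurable_sum S fun g _ => hm g).aestronglyMeasurable)
        (hsumQ.mono fun τ hτ => hτ.of_norm.hasSum)
    · exact enorm_tsum_le_tsum_enorm
  · rw [integral_congr_ae hcongr, integral_tsum (fun g => (hm g).aestronglyMeasurable) hfin,
      integral_congr_ae hmk]
    have hterm : ∀ g : SL(2, ℤ), ∫ τ in ModularGroup.fd, Q (g • τ) =
        ∫ τ, Q τ * ((ModularGroup.fd.indicator (fun _ => (1 : ℝ)) (g⁻¹ • τ) : ℝ) : ℂ) := fun g => by
      rw [← integral_indicator measurableSet_fd,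
        ← (measurePreserving_smulSL g).integral_comp (measurableEmbedding_smulSL g)
          (fun τ => Q τ * ((ModularGroup.fd.indicator (fun _ => (1 : ℝ)) (g⁻¹ • τ) : ℝ) : ℂ))]
      refine integral_congr_ae (Filter.Eventually.of_forall fun τ => ?_)
      simp only [inv_smul_smul]
      by_cases h : τ ∈ ModularGroup.fd <;> simp [h]
    simp only [hterm]
    rw [← integral_tsum, ← integral_const_mul]
    · refine integral_congr_ae (tsum_indicator_fd_inv_ae.mono fun τ hτ => ?_)
      simp only [tsum_mul_left, ← Complex.ofReal_tsum]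
      have h2 : ∑' g : SL(2, ℤ), ModularGroup.fd.indicator (fun _ => (1 : ℝ)) (g⁻¹ • τ) = 2 := by
        have h3 := congrArg ENNReal.toReal hτ
        rw [ENNReal.tsum_toReal_eq fun g => by
          exact (lt_of_le_of_lt (Set.indicator_le' (fun _ _ => le_rfl) (fun _ _ => zero_le_one) _)
            ENNReal.one_lt_top).ne] at h3
        rw [← show (2 : ℝ≥0∞).toReal = 2 from rfl, ← h3]
        refine tsum_congr fun g => ?_
        by_cases h : g⁻¹ • τ ∈ ModularGroup.fd
        · rw [Set.indicator_of_mem h, Set.indicator_of_mem h, ENNReal.toReal_one]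
        · rw [Set.indicator_of_notMem h, Set.indicator_of_notMem h, ENNReal.toReal_zero]
      rw [h2]; push_cast; ring
    · exact fun g => hQ.aestronglyMeasurable.mul
        ((Complex.measurable_ofReal.comp ((measurable_const.indicator measurableSet_fd).comp
          (measurePreserving_smulSL g⁻¹).measurable)).aestronglyMeasurable)
    · have e : ∀ g : SL(2, ℤ), ∫⁻ τ, ‖Q τ *
          ((ModularGroup.fd.indicator (fun _ => (1 : ℝ)) (g⁻¹ • τ) : ℝ) : ℂ)‖ₑ =
          ∫⁻ τ in ModularGroup.fd, ‖Q (g • τ)‖ₑ := fun g => by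
        rw [← lintegral_indicator measurableSet_fd,
          ← (measurePreserving_smulSL g).lintegral_comp_emb (measurableEmbedding_smulSL g)]
        refine lintegral_congr fun τ => ?_
        rw [inv_smul_smul]
        by_cases h : τ ∈ ModularGroup.fd <;> simp [h]
      simp only [e]
      exact hfin

end FLTAgent.LT.Asai
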