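import Fermat.Agent.LT.Interface
import Fermat.Agent.LT.Asai.Strip.Tiling
import Fermat.Agent.LT.Asai.Strip.Lattice
import Fermat.Agent.LT.Asai.Strip.Coords

/-!
# The Mellin transform of the constant term is bounded when the period vanishes
-/

set_option autoImplicit false

noncomputable section

namespace FLTAgent.LT.Asai

open MeasureTheory UpperHalfPlane
open scoped MatrixGroups Modular

attribute [local instance] countable_SL2Z

/-- The strip of width `m`. -/
def stripSet (m : ℕ) : Set ℍ := {τ | 0 ≤ τ.re ∧ τ.re < m}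

theorem measurableSet_stripSet (m : ℕ) : MeasurableSet (stripSet m) :=
  (measurableSet_le measurable_const (Complex.measurable_re.comp measurable_coe)).inter
    (measurableSet_lt (Complex.measurable_re.comp measurable_coe) measurable_const)

/-- The integrand of the unfolded integral. -/
def stripFun (m : ℕ) (u : ℍ → ℂ) (s : ℝ) : ℍ → ℂ :=
  (stripSet m).indicator fun τ => u τ * ((τ.im ^ s : ℝ) : ℂ)

/-- The bottom row. -/
def botRow (g : SL(2, ℤ)) : Fin 2 → ℤ := fun i => g 1 i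

theorem eterm_botRow (τ : ℍ) (s : ℝ) (g : SL(2, ℤ)) :
    eterm τ s (botRow g) = (g • τ).im ^ s := by
  rw [eterm, ModularGroup.im_smul_eq_div_normSq, ModularGroup.denom_apply]
  rfl

theorem continuous_smulSL (g : SL(2, ℤ)) : Continuous fun τ : ℍ => g • τ := by
  rw [show (fun τ : ℍ => g • τ) = fun τ : ℍ => (g : GL (Fin 2) ℝ) • τ from
    funext fun τ => ModularGroup.sl_moeb g τ]
  exact continuous_const_smul _

theorem three_quarters_le {τ : ℍ} (hτ : τ ∈ ModularGroup.fd) : 3 / 4 ≤ τ.im := by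
  nlinarith [ModularGroup.three_le_four_mul_im_sq_of_mem_fd hτ, τ.im_pos]

theorem integral_Ioi_rpow_exp_le {ε : ℝ} (hε : 0 < ε) {s : ℝ} (hs : 1 < s) :
    IntegrableOn (fun y => y ^ (s - 2) * Real.exp (-(ε * y))) (Set.Ioi 0) := by
  simpa [neg_mul] using integrableOn_rpow_mul_exp_neg_mul_rpow (s := s - 2) (p := 1)
    (by linarith) one_pos hε

theorem integrable_stripFun {m : ℕ} {u : ℍ → ℂ} (hcont : Continuous u) {A ε : ℝ} (hε : 0 < ε)
    (hA : ∀ τ : ℍ, ‖u τ‖ ≤ A * Real.exp (-(ε * τ.im))) {s : ℝ} (hs : 1 < s) :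
    Integrable (stripFun m u s) := by
  have hm : AEStronglyMeasurable (stripFun m u s) volume :=
    ((hcont.mul (Complex.continuous_ofReal.comp
      (continuous_im.rpow_const fun τ => Or.inl τ.im_ne_zero))).aestronglyMeasurable).indicator
        (measurableSet_stripSet m)
  refine ⟨hm, ?_⟩
  have hA0 : 0 ≤ A := by
    have := (norm_nonneg _).trans (hA UpperHalfPlane.I)
    nlinarith [Real.exp_pos (-(ε * UpperHalfPlane.I.im))]
  let f : ℂ → ENNReal := fun z => ({z : ℂ | 0 ≤ z.re ∧ z.re < m}).indicator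
    (fun z => ENNReal.ofReal (A * Real.exp (-(ε * z.im)) * z.im ^ s)) z
  have hS : MeasurableSet {z : ℂ | 0 ≤ z.re ∧ z.re < m} :=
    (measurableSet_le measurable_const Complex.measurable_re).inter
      (measurableSet_lt Complex.measurable_re measurable_const)
  have hf : Measurable f := Measurable.indicator
    (((measurable_const.mul ((Complex.measurable_im.const_mul ε).neg.exp)).mul
      (Complex.measurable_im.pow_const s)).ennreal_ofReal) hS
  have hle : ∫⁻ τ : ℍ, ‖stripFun m u s τ‖ₑ ≤ ∫⁻ τ : ℍ, f τ := by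
    refine lintegral_mono fun τ => ?_
    simp only [stripFun, f]
    by_cases h : τ ∈ stripSet m
    · rw [Set.indicator_of_mem h, Set.indicator_of_mem (show (τ : ℂ) ∈ {z : ℂ | 0 ≤ z.re ∧ z.re < m} from h),
        ← ofReal_norm, norm_mul, Complex.norm_real, Real.norm_eq_abs,
        abs_of_nonneg (Real.rpow_nonneg τ.im_pos.le s)]
      exact ENNReal.ofReal_le_ofReal
        (mul_le_mul_of_nonneg_right (hA τ) (Real.rpow_nonneg τ.im_pos.le s))
    · rw [Set.indicator_of_notMem h, Set.indicator_of_notMem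
        (show (τ : ℂ) ∉ {z : ℂ | 0 ≤ z.re ∧ z.re < m} from h), enorm_zero]
  refine lt_of_le_of_lt hle ?_
  rw [lintegral_uhp hf, coordMeasure, lintegral_withDensity_eq_lintegral_mul _ (by fun_prop)
    (g := fun p : ℝ × ℝ => f ⟨p.1, p.2⟩)
    (hf.fun_comp Complex.measurableEquivRealProd.symm.measurable)]
  have e : ∀ p : ℝ × ℝ, 0 < p.2 →
      ENNReal.ofReal ((p.2 ^ 2)⁻¹) * f ⟨p.1, p.2⟩ = (Set.Ico (0 : ℝ) m).indicator 1 p.1 *
        ENNReal.ofReal (A * (p.2 ^ (s - 2) * Real.exp (-(ε * p.2)))) := fun p hp => by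
    simp only [f]
    by_cases h : p.1 ∈ Set.Ico (0 : ℝ) m
    · rw [Set.indicator_of_mem h, Set.indicator_of_mem
        (show (⟨p.1, p.2⟩ : ℂ) ∈ {z : ℂ | 0 ≤ z.re ∧ z.re < m} from h), Pi.one_apply, one_mul,
        ← ENNReal.ofReal_mul (by positivity)]
      congr 1
      show (p.2 ^ 2)⁻¹ * (A * Real.exp (-(ε * p.2)) * p.2 ^ s) = _
      rw [Real.rpow_sub hp, Real.rpow_two]
      field_simp
    · rw [Set.indicator_of_notMem h, Set.indicator_of_notMem
        (show (⟨p.1, p.2⟩ : ℂ) ∉ {z : ℂ | 0 ≤ z.re ∧ z.re < m} from h), mul_zero, zero_mul]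
  have hae : ∀ᵐ p : ℝ × ℝ ∂(volume : Measure ℝ).prod (volume.restrict (Set.Ioi 0)), 0 < p.2 :=
    Measure.quasiMeasurePreserving_snd.ae (ae_restrict_mem measurableSet_Ioi)
  refine lt_of_eq_of_lt (lintegral_congr_ae (hae.mono fun p hp => e p hp)) ?_
  rw [lintegral_prod_mul (f := (Set.Ico (0 : ℝ) m).indicator 1)
    (g := fun y : ℝ => ENNReal.ofReal (A * (y ^ (s - 2) * Real.exp (-(ε * y)))))
    ((measurable_one.indicator measurableSet_Ico).aemeasurable) (by fun_prop),
    lintegral_indicator_one measurableSet_Ico]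
  refine ENNReal.mul_lt_top (by simp) ?_
  exact ((integral_Ioi_rpow_exp_le hε hs).const_mul A).lintegral_lt_top

theorem volume_fd_lt_top : volume (ModularGroup.fd : Set ℍ) < ⊤ := by
  let f : ℂ → ENNReal := fun z =>
    ({z : ℂ | z.re ∈ Set.Icc (-(1 / 2) : ℝ) (1 / 2) ∧ 3 / 4 ≤ z.im}).indicator 1 z
  have hS : MeasurableSet {z : ℂ | z.re ∈ Set.Icc (-(1 / 2) : ℝ) (1 / 2) ∧ 3 / 4 ≤ z.im} :=
    (Complex.measurable_re measurableSet_Icc).inter
      (measurableSet_le measurable_const Complex.measurable_im)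
  have hle : volume (ModularGroup.fd : Set ℍ) ≤ ∫⁻ τ : ℍ, f τ := by
    rw [← lintegral_indicator_one measurableSet_fd]
    refine lintegral_mono fun τ => ?_
    by_cases h : τ ∈ ModularGroup.fd
    · have hre : |τ.re| ≤ 1 / 2 := h.2
      rw [Set.indicator_of_mem h, Pi.one_apply]
      simp only [f]
      rw [Set.indicator_of_mem (show (τ : ℂ) ∈ {z : ℂ | z.re ∈ Set.Icc (-(1 / 2) : ℝ) (1 / 2) ∧
        3 / 4 ≤ z.im} from ⟨abs_le.mp hre, three_quarters_le h⟩), Pi.one_apply]
    · rw [Set.indicator_of_notMem h]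
      exact zero_le
  refine lt_of_le_of_lt hle ?_
  rw [lintegral_uhp (measurable_one.indicator hS), coordMeasure,
    lintegral_withDensity_eq_lintegral_mul _ (by fun_prop)
      (g := fun p : ℝ × ℝ => f ⟨p.1, p.2⟩)
      ((measurable_one.indicator hS).fun_comp Complex.measurableEquivRealProd.symm.measurable)]
  have e : ∀ p : ℝ × ℝ, ENNReal.ofReal ((p.2 ^ 2)⁻¹) * f ⟨p.1, p.2⟩ =
      (Set.Icc (-(1 / 2) : ℝ) (1 / 2)).indicator 1 p.1 *
        (Set.Ici (3 / 4 : ℝ)).indicator (fun y => ENNReal.ofReal ((y ^ 2)⁻¹)) p.2 := fun p => by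
    simp only [f]
    by_cases h1 : p.1 ∈ Set.Icc (-(1 / 2) : ℝ) (1 / 2)
    · by_cases h2 : p.2 ∈ Set.Ici (3 / 4 : ℝ)
      · rw [Set.indicator_of_mem h1, Set.indicator_of_mem h2, Set.indicator_of_mem
          (show (⟨p.1, p.2⟩ : ℂ) ∈ {z : ℂ | z.re ∈ Set.Icc (-(1 / 2) : ℝ) (1 / 2) ∧ 3 / 4 ≤ z.im}
            from ⟨h1, h2⟩)]
        simp
      · rw [Set.indicator_of_notMem h2, Set.indicator_of_notMem
          (show (⟨p.1, p.2⟩ : ℂ) ∉ {z : ℂ | z.re ∈ Set.Icc (-(1 / 2) : ℝ) (1 / 2) ∧ 3 / 4 ≤ z.im}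
            from fun h => h2 h.2), mul_zero, mul_zero]
    · rw [Set.indicator_of_notMem h1, Set.indicator_of_notMem
        (show (⟨p.1, p.2⟩ : ℂ) ∉ {z : ℂ | z.re ∈ Set.Icc (-(1 / 2) : ℝ) (1 / 2) ∧ 3 / 4 ≤ z.im}
          from fun h => h1 h.1), mul_zero, zero_mul]
  simp only [Pi.mul_apply, e]
  rw [lintegral_prod_mul (f := (Set.Icc (-(1 / 2) : ℝ) (1 / 2)).indicator 1)
    (g := (Set.Ici (3 / 4 : ℝ)).indicator fun y => ENNReal.ofReal ((y ^ 2)⁻¹))
    ((measurable_one.indicator measurableSet_Icc).aemeasurable)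
    ((Measurable.indicator (by fun_prop) measurableSet_Ici).aemeasurable),
    lintegral_indicator_one measurableSet_Icc]
  refine ENNReal.mul_lt_top (by simp) ?_
  rw [lintegral_indicator measurableSet_Ici]
  refine lt_of_le_of_lt (lintegral_mono' (Measure.restrict_mono le_rfl Measure.restrict_le_self) le_rfl) ?_
  have hi : IntegrableOn (fun y : ℝ => (y ^ 2)⁻¹) (Set.Ici (3 / 4 : ℝ)) := by
    refine ((integrableOn_Ioi_rpow_of_lt (by norm_num : (-2 : ℝ) < -1)
      (by norm_num : (0 : ℝ) < 1 / 2)).mono_set (Set.Ici_subset_Ioi.mpr (by norm_num))).congr_fun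
        (fun y (hy : (3 / 4 : ℝ) ≤ y) => ?_) measurableSet_Ici
    show y ^ (-2 : ℝ) = _
    rw [Real.rpow_neg (by linarith), Real.rpow_two]
  exact hi.lintegral_lt_top

set_option maxHeartbeats 1000000 in
/-- The cosets with their bottom rows and the elements carrying a point into the strip. -/
theorem tsum_stripFun_smul {m : ℕ} (hm : 0 < m) {u : ℍ → ℂ}
    (hinv : ∀ γ ∈ CongruenceSubgroup.Gamma m, ∀ τ : ℍ, u (γ • τ) = u τ) (s : ℝ) (τ : ℍ)
    [Fintype (SL(2, ℤ) ⧸ CongruenceSubgroup.Gamma m)]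
    (hsum : ∀ q : SL(2, ℤ) ⧸ CongruenceSubgroup.Gamma m,
      Summable fun r : primClass m (botRow q.out) => eterm τ s r) :
    ∑' g : SL(2, ℤ), stripFun m u s (g • τ) =
      ∑ q : SL(2, ℤ) ⧸ CongruenceSubgroup.Gamma m,
        u (q.out • τ) * (eprim m (botRow q.out) τ s : ℂ) := by
  set Γ := CongruenceSubgroup.Gamma m
  have hnorm : Γ.Normal := CongruenceSubgroup.Gamma_normal m
  have hu : ∀ g : SL(2, ℤ), u (g • τ) = u ((QuotientGroup.mk (s := Γ) g).out • τ) := fun g => by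
    obtain ⟨γ, hγ⟩ := QuotientGroup.mk_out_eq_mul Γ g
    rw [hγ, show g * (γ : SL(2, ℤ)) = (g * γ * g⁻¹) * g by group, mul_smul,
      hinv _ (hnorm.conj_mem _ γ.2 g)]
  have hrow : ∀ g : SL(2, ℤ), botRow g ∈ primClass m (botRow (QuotientGroup.mk (s := Γ) g).out) := by
    intro g
    refine ⟨ModularGroup.bottom_row_coprime g, fun i => ?_⟩
    obtain ⟨γ, hγ⟩ := QuotientGroup.mk_out_eq_mul Γ g
    rw [hγ]
    have h := CongruenceSubgroup.Gamma_mem.mp γ.2
    rw [← ZMod.intCast_eq_intCast_iff_dvd_sub]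
    show ((g * γ : SL(2, ℤ)) 1 i : ZMod m) = (g 1 i : ZMod m)
    simp only [Matrix.SpecialLinearGroup.coe_mul, Matrix.mul_apply, Fin.sum_univ_two]
    push_cast
    fin_cases i <;> simp [h.1, h.2.1, h.2.2.1, h.2.2.2]
  let A : Set SL(2, ℤ) := {g | g • τ ∈ stripSet m}
  let Φ : A → (Σ q : SL(2, ℤ) ⧸ Γ, primClass m (botRow q.out)) := fun g =>
    ⟨QuotientGroup.mk g.1, ⟨botRow g.1, hrow g.1⟩⟩
  have hΦ : Function.Bijective Φ := by
    constructor
    · rintro ⟨g, hg⟩ ⟨g', hg'⟩ h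
      obtain ⟨h1, h2⟩ := Sigma.mk.inj_iff.mp h
      have hrr : botRow g = botRow g' := by
        have := congrArg (fun x : (Σ q : SL(2, ℤ) ⧸ Γ, primClass m (botRow q.out)) =>
          (x.2 : Fin 2 → ℤ)) h
        simpa [Φ] using this
      have hmem : g' * g⁻¹ ∈ Γ := by
        have h3 : g⁻¹ * g' ∈ Γ := QuotientGroup.eq.mp h1
        have := hnorm.conj_mem _ h3 g
        simpa [mul_assoc] using this
      set n : ℤ := (g' * g⁻¹) 0 1 with hn0
      have h0 : g' 1 0 = g 1 0 := (congrFun hrr 0).symm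
      have h1' : g' 1 1 = g 1 1 := (congrFun hrr 1).symm
      have hdet : (g 0 0 * g 1 1 - g 0 1 * g 1 0 : ℤ) = 1 := by
        rw [← Matrix.det_fin_two]; exact g.det_coe
      have hdet' : (g' 0 0 * g' 1 1 - g' 0 1 * g' 1 0 : ℤ) = 1 := by
        rw [← Matrix.det_fin_two]; exact g'.det_coe
      rw [h0, h1'] at hdet'
      have hn : g' * g⁻¹ = ModularGroup.T ^ n := by
        apply Subtype.ext
        rw [ModularGroup.coe_T_zpow]
        ext i j
        fin_cases i <;> fin_cases j <;>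
          simp [hn0, Matrix.SpecialLinearGroup.coe_mul, Matrix.SpecialLinearGroup.coe_inv,
            Matrix.adjugate_fin_two, Matrix.mul_apply, Fin.sum_univ_two, h0, h1'] <;>
          first | ring1 | linear_combination hdet | linear_combination hdet'
      obtain ⟨k, hk⟩ : (m : ℤ) ∣ n :=
        (ZMod.intCast_zmod_eq_zero_iff_dvd _ m).mp (CongruenceSubgroup.Gamma_mem.mp hmem).2.1
      have hre : (g' • τ).re = (g • τ).re + n := by
        rw [show g' • τ = (g' * g⁻¹) • (g • τ) by rw [mul_smul, inv_smul_smul], hn,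
          ModularGroup.re_T_zpow_smul]
      have hgs : g • τ ∈ stripSet m := hg
      have hgs' : g' • τ ∈ stripSet m := hg'
      have hmr : (0 : ℝ) < m := Nat.cast_pos.mpr hm
      have hk0 : k = 0 := by
        have h1r : (n : ℝ) = (m : ℝ) * k := by exact_mod_cast hk
        have h2r : (-1 : ℝ) < k ∧ (k : ℝ) < 1 := by
          constructor <;> nlinarith [hgs.1, hgs.2, hgs'.1, hgs'.2]
        have h3r : (-1 : ℤ) < k ∧ k < 1 := by exact_mod_cast h2r
        omega
      subst hk0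
      rw [hk, mul_zero, zpow_zero, mul_inv_eq_one] at hn
      exact Subtype.ext hn.symm
    · rintro ⟨q, r, hr⟩
      obtain ⟨g₁, -, hg₁⟩ := ModularGroup.bottom_row_surj (R := ℤ) hr.1
      set c := q.out
      set b : ℤ := (c * g₁⁻¹ : SL(2, ℤ)) 0 1 with hb
      set g₂ : SL(2, ℤ) := ModularGroup.T ^ b * g₁ with hg₂
      have hmem : g₂⁻¹ * c ∈ Γ := by
        have hh : c * g₁⁻¹ * (ModularGroup.T ^ b)⁻¹ ∈ Γ := by
          have hm1 : ∀ i, ((g₁ 1 i : ℤ) : ZMod m) = (c 1 i : ZMod m) := fun i => by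
            have := (ZMod.intCast_eq_intCast_iff_dvd_sub (c 1 i) (r i) m).mpr (hr.2 i)
            rw [this]
            congr 1
            exact congrFun hg₁ i
          have hdet : (g₁ 0 0 * g₁ 1 1 - g₁ 0 1 * g₁ 1 0 : ℤ) = 1 := by
            rw [← Matrix.det_fin_two]; exact g₁.det_coe
          have hdetc : (c 0 0 * c 1 1 - c 0 1 * c 1 0 : ℤ) = 1 := by
            rw [← Matrix.det_fin_two]; exact c.det_coe
          have e0 := hm1 0
          have e1 := hm1 1
          have hdet' := congrArg (Int.cast : ℤ → ZMod m) hdet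
          have hdetc' := congrArg (Int.cast : ℤ → ZMod m) hdetc
          push_cast at hdet' hdetc'
          rw [e0, e1] at hdet'
          rw [CongruenceSubgroup.Gamma_mem, ← zpow_neg]
          simp only [hb, Matrix.SpecialLinearGroup.coe_mul, Matrix.SpecialLinearGroup.coe_inv,
            Matrix.adjugate_fin_two, ModularGroup.coe_T_zpow, Matrix.mul_apply, Fin.sum_univ_two,
            Matrix.of_apply, Matrix.cons_val', Matrix.cons_val_zero, Matrix.cons_val_one,
            Matrix.empty_val', Matrix.cons_val_fin_one]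
          push_cast
          rw [e0, e1]
          refine ⟨?_, ?_, ?_, ?_⟩
          · linear_combination hdetc'
          · linear_combination (-((c 0 0 : ZMod m) * -(g₁ 0 1 : ZMod m)) -
              (c 0 1 : ZMod m) * (g₁ 0 0 : ZMod m)) * hdetc'
          · ring
          · linear_combination hdet'
        have h3 := hnorm.conj_mem _ hh g₂⁻¹
        convert h3 using 1
        rw [hg₂]
        group
      set j : ℤ := ⌊(g₂ • τ).re / m⌋ with hj
      set g₃ : SL(2, ℤ) := ModularGroup.T ^ (-(m * j) : ℤ) * g₂ with hg₃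
      have hmr : (0 : ℝ) < m := Nat.cast_pos.mpr hm
      have hA3 : g₃ ∈ A := by
        show g₃ • τ ∈ stripSet m
        rw [hg₃, mul_smul]
        simp only [stripSet, Set.mem_ofPred_eq, ModularGroup.re_T_zpow_smul]
        push_cast
        have hf1 := Int.floor_le ((g₂ • τ).re / m)
        have hf2 := Int.lt_floor_add_one ((g₂ • τ).re / m)
        rw [le_div_iff₀ hmr] at hf1
        rw [div_lt_iff₀ hmr] at hf2
        rw [← hj] at hf1 hf2
        constructor <;> linarith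
      refine ⟨⟨g₃, hA3⟩, ?_⟩
      have hq : QuotientGroup.mk (s := Γ) g₃ = q := by
        rw [← QuotientGroup.out_eq' q, QuotientGroup.eq, hg₃, mul_inv_rev, mul_assoc]
        have hT : (ModularGroup.T ^ (-(m * j) : ℤ))⁻¹ ∈ Γ :=
          inv_mem (show _ ∈ CongruenceSubgroup.Gamma (m : ℤ).natAbs from
            CongruenceSubgroup.ModularGroup_T_pow_mem_Gamma (m : ℤ) (-(m * j) : ℤ)
              (dvd_neg.mpr (Dvd.intro j rfl)))
        have : g₂⁻¹ * ((ModularGroup.T ^ (-(m * j) : ℤ))⁻¹ * c) =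
            g₂⁻¹ * (ModularGroup.T ^ (-(m * j) : ℤ))⁻¹ * g₂ * (g₂⁻¹ * c) := by group
        rw [this]
        refine mul_mem ?_ hmem
        have h4 := hnorm.conj_mem _ hT g₂⁻¹
        simpa using h4
      have hrow3 : botRow g₃ = r := by
        funext i
        rw [← congrFun hg₁ i]
        simp only [botRow, hg₃, hg₂, ← mul_assoc, ← zpow_add, Matrix.SpecialLinearGroup.coe_mul,
          ModularGroup.coe_T_zpow, Matrix.mul_apply, Fin.sum_univ_two]
        simp
      simp only [Φ]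
      refine Sigma.ext hq ?_
      have hp : ∀ q', q' = q → ∀ (a : primClass m (botRow q'.out)), (a : Fin 2 → ℤ) = r →
          HEq a (⟨r, hr⟩ : primClass m (botRow q.out)) := by
        rintro q' rfl a ha
        exact heq_of_eq (Subtype.ext ha)
      exact hp _ hq _ hrow3
  have h1 : ∑' g : SL(2, ℤ), stripFun m u s (g • τ) =
      ∑' g : A, u (g.1 • τ) * ((eterm τ s (botRow g.1) : ℝ) : ℂ) := by
    rw [tsum_subtype A fun g => u (g • τ) * ((eterm τ s (botRow g) : ℝ) : ℂ)]
    refine tsum_congr fun g => ?_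
    by_cases h : g • τ ∈ stripSet m
    · rw [stripFun, Set.indicator_of_mem h, Set.indicator_of_mem (show g ∈ A from h), eterm_botRow]
    · rw [stripFun, Set.indicator_of_notMem h, Set.indicator_of_notMem (show g ∉ A from h)]
  rw [h1]
  have h2 : ∀ g : A, u (g.1 • τ) * ((eterm τ s (botRow g.1) : ℝ) : ℂ) =
      (fun x : (Σ q : SL(2, ℤ) ⧸ Γ, primClass m (botRow q.out)) =>
        u (x.1.out • τ) * ((eterm τ s x.2 : ℝ) : ℂ)) (Φ g) := fun g => by
    show _ = u ((QuotientGroup.mk (s := Γ) g.1).out • τ) * ((eterm τ s (botRow g.1) : ℝ) : ℂ)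
    rw [hu g.1]
  rw [tsum_congr h2]
  refine ((Equiv.ofBijective Φ hΦ).tsum_eq
    (fun x : (Σ q : SL(2, ℤ) ⧸ Γ, primClass m (botRow q.out)) =>
        u (x.1.out • τ) * ((eterm τ s x.2 : ℝ) : ℂ))).trans ?_
  have hsummand : ∀ q : SL(2, ℤ) ⧸ Γ, Summable fun r : primClass m (botRow q.out) =>
      u (q.out • τ) * ((eterm τ s r : ℝ) : ℂ) := fun q =>
    ((Complex.summable_ofReal.mpr (hsum q))).mul_left _
  rw [Summable.tsum_sigma' (f := fun x : (Σ q : SL(2, ℤ) ⧸ Γ, primClass m (botRow q.out)) =>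
    u (x.1.out • τ) * ((eterm τ s x.2 : ℝ) : ℂ)) hsummand, tsum_fintype]
  · refine Finset.sum_congr (Finset.ext fun _ => by simp) fun q _ => ?_
    simp only []
    rw [tsum_mul_left, eprim, Complex.ofReal_tsum]
  · refine Summable.of_norm ((summable_sigma_of_nonneg fun x => norm_nonneg _).mpr
      ⟨fun q => (hsummand q).norm, Summable.of_finite⟩)

/-- Piece of C: when the period of a `Γ(m)`-invariant function of rapid decay vanishes, the
integrals of `u · y^s` over the strip stay bounded as `s → 1`. -/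
theorem exists_strip_bound {m : ℕ} (hm : 0 < m) {u : ℍ → ℂ} (hcont : Continuous u)
    (hinv : ∀ γ ∈ CongruenceSubgroup.Gamma m, ∀ τ : ℍ, u (γ • τ) = u τ)
    (hbdd : ∃ C, ∀ τ, ‖u τ‖ ≤ C)
    (hdec : ∀ c : SL(2, ℤ), ∃ C ε : ℝ, 0 < ε ∧
      ∀ τ : ℍ, 1 ≤ τ.im → ‖u (c • τ)‖ ≤ C * Real.exp (-(ε * τ.im)))
    (hper : period m u = 0) :
    (∀ s : ℝ, 1 < s → Integrable (stripFun m u s)) ∧
      ∃ C, ∀ s ∈ Set.Ioc (1 : ℝ) 2, ‖∫ τ, stripFun m u s τ‖ ≤ C := by
  have : NeZero m := ⟨hm.ne'⟩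
  have hfi : (CongruenceSubgroup.Gamma m).FiniteIndex := inferInstance
  set Γ := CongruenceSubgroup.Gamma m
  let _ : Fintype (SL(2, ℤ) ⧸ Γ) := Fintype.ofFinite _
  obtain ⟨B0, hB0⟩ := hbdd
  have hdec' : ∀ c : SL(2, ℤ), ∃ A ε : ℝ, 0 < ε ∧ 0 ≤ A ∧
      ∀ τ : ℍ, ‖u (c • τ)‖ ≤ A * Real.exp (-(ε * τ.im)) := by
    intro c
    obtain ⟨C, ε, hε, hC⟩ := hdec c
    refine ⟨max C (max B0 0 * Real.exp ε), ε, hε,
      le_max_of_le_right (mul_nonneg (le_max_right _ _) (Real.exp_pos _).le), fun τ => ?_⟩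
    rcases le_or_gt 1 τ.im with h | h
    · exact (hC τ h).trans (mul_le_mul_of_nonneg_right (le_max_left _ _) (Real.exp_pos _).le)
    · refine le_trans ?_ (mul_le_mul_of_nonneg_right (le_max_right _ _) (Real.exp_pos _).le)
      rw [mul_assoc, ← Real.exp_add]
      refine (hB0 _).trans ((le_max_left _ 0).trans
        (le_mul_of_one_le_right (le_max_right _ _) (Real.one_le_exp ?_)))
      nlinarith
  choose A ε hε hA0 hA using hdec'
  have hPint : ∀ s : ℝ, 1 < s → Integrable (stripFun m u s) := fun s hs =>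
    integrable_stripFun hcont (hε 1) (fun τ => by simpa using hA 1 τ) hs
  refine ⟨hPint, ?_⟩
  choose K hK0 hK using fun q : SL(2, ℤ) ⧸ Γ =>
    exists_eprim_bound hm (botRow q.out) (ModularGroup.bottom_row_coprime q.out)
  set Kf := ∑ q : SL(2, ℤ) ⧸ Γ, K q * (A q.out * (6 / ε q.out ^ 3))
  refine ⟨Kf * (volume (ModularGroup.fd : Set ℍ)).toReal, fun s hs => ?_⟩
  have hfin : IsFiniteMeasure (volume.restrict (ModularGroup.fd : Set ℍ)) :=
    ⟨by rw [Measure.restrict_apply_univ]; exact volume_fd_lt_top⟩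
  obtain ⟨-, hTint, hTeq⟩ := setIntegral_fd_tsum_smul (hPint s hs.1)
  set R : ℝ := moebTot m s * cstE m s / (s - 1)
  set T : ℍ → ℂ := fun τ => ∑' g : SL(2, ℤ), stripFun m u s (g • τ)
  set U : ℍ → ℂ := fun τ => ∑ q : SL(2, ℤ) ⧸ Γ, u (q.out • τ)
  have hq : ∀ q : SL(2, ℤ) ⧸ Γ, IntegrableOn (fun τ => u (q.out • τ)) ModularGroup.fd := fun q =>
    (integrable_const (c := max B0 0)).mono'
      (hcont.comp (continuous_smulSL q.out)).aestronglyMeasurable
      (Filter.Eventually.of_forall fun τ => (hB0 _).trans (le_max_left _ _))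
  have hU : IntegrableOn U ModularGroup.fd := integrable_finsetSum _ fun q _ => hq q
  have hU0 : ∫ τ in ModularGroup.fd, U τ = 0 := by
    rw [integral_finsetSum _ fun q _ => hq q]
    rw [period, finsum_eq_sum_of_fintype] at hper
    exact hper
  have herr : ∀ τ ∈ ModularGroup.fd, ‖T τ - (R : ℂ) * U τ‖ ≤ Kf := fun τ hτ => by
    have hy := three_quarters_le hτ
    simp only [T, U]
    rw [tsum_stripFun_smul hm hinv s τ fun q => (hK q τ hτ s hs).1, Finset.mul_sum,
      ← Finset.sum_sub_distrib]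
    refine (norm_sum_le _ _).trans (Finset.sum_le_sum fun q _ => ?_)
    rw [mul_comm (R : ℂ), ← mul_sub, ← Complex.ofReal_sub, norm_mul, Complex.norm_real,
      Real.norm_eq_abs]
    refine (mul_le_mul (hA q.out τ) ((hK q τ hτ s hs).2) (abs_nonneg _)
      (mul_nonneg (hA0 _) (Real.exp_pos _).le)).trans ?_
    have hexp : τ.im ^ 3 * Real.exp (-(ε q.out * τ.im)) ≤ 6 / ε q.out ^ 3 := by
      have h := Real.pow_div_factorial_le_exp (ε q.out * τ.im)
        (mul_nonneg (hε _).le τ.im_pos.le) 3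
      rw [Real.exp_neg, ← div_eq_mul_inv, div_le_div_iff₀ (Real.exp_pos _) (pow_pos (hε _) 3)]
      rw [div_le_iff₀ (by positivity), mul_pow] at h
      norm_num [Nat.factorial] at h
      linarith
    calc A q.out * Real.exp (-(ε q.out * τ.im)) * (K q * τ.im ^ 3)
        = K q * A q.out * (τ.im ^ 3 * Real.exp (-(ε q.out * τ.im))) := by ring
      _ ≤ K q * A q.out * (6 / ε q.out ^ 3) :=
          mul_le_mul_of_nonneg_left hexp (mul_nonneg (hK0 q) (hA0 _))
      _ = _ := by ring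
  have hmain : ‖∫ τ in ModularGroup.fd, T τ‖ ≤ Kf * (volume (ModularGroup.fd : Set ℍ)).toReal := by
    have h1 : ∫ τ in ModularGroup.fd, T τ = ∫ τ in ModularGroup.fd, (T τ - (R : ℂ) * U τ) := by
      rw [integral_sub hTint (hU.const_mul _), integral_const_mul, hU0, mul_zero, sub_zero]
    rw [h1]
    exact norm_setIntegral_le_of_norm_le_const volume_fd_lt_top herr
  rw [hTeq, norm_mul, Complex.norm_ofNat] at hmain
  linarith [norm_nonneg (∫ τ, stripFun m u s τ)]

/-- The strip integral as a Mellin transform. -/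
theorem integral_stripFun {m : ℕ} {u : ℍ → ℂ} {s : ℝ} (h : Integrable (stripFun m u s)) :
    ∫ τ, stripFun m u s τ = ∫ y in Set.Ioi (0 : ℝ),
      ((y ^ (s - 2) : ℝ) : ℂ) * ∫ x in Set.Ico (0 : ℝ) m, u (UpperHalfPlane.ofComplex ⟨x, y⟩) := by
  have e : ∀ τ : ℍ, stripFun m u s τ = stripFun m u s (UpperHalfPlane.ofComplex (τ : ℂ)) := fun τ => by
    rw [UpperHalfPlane.ofComplex_apply]
  rw [integral_congr_ae (Filter.Eventually.of_forall e),
    integral_uhp_iterated (F := fun z : ℂ => stripFun m u s (UpperHalfPlane.ofComplex z))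
      (h.congr (Filter.Eventually.of_forall e))]
  refine setIntegral_congr_fun measurableSet_Ioi fun y (hy : 0 < y) => ?_
  rw [← integral_const_mul, ← integral_const_mul, ← integral_indicator measurableSet_Ico]
  refine integral_congr_ae (Filter.Eventually.of_forall fun x => ?_)
  have ho : UpperHalfPlane.ofComplex (⟨x, y⟩ : ℂ) = ⟨⟨x, y⟩, hy⟩ :=
    UpperHalfPlane.ofComplex_apply_of_im_pos hy
  simp only [ho, stripFun]
  by_cases hx : x ∈ Set.Ico (0 : ℝ) m
  · rw [Set.indicator_of_mem hx, Set.indicator_of_mem (show (⟨⟨x, y⟩, hy⟩ : ℍ) ∈ stripSet m from hx)]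
    show _ * (u ⟨⟨x, y⟩, hy⟩ * ((y ^ s : ℝ) : ℂ)) = _
    rw [Real.rpow_sub hy, Real.rpow_two, ho]
    push_cast
    ring
  · rw [Set.indicator_of_notMem hx,
      Set.indicator_of_notMem (show (⟨⟨x, y⟩, hy⟩ : ℍ) ∉ stripSet m from hx), mul_zero]

end FLTAgent.LT.Asai
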